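import Mathlib
import Fermat.Agent.S35x.Degeneracy.HeckeES
import Fermat.Agent.S40x.A.CopyFinal

/-!
# P-S44 block A, leaf A5 (independent second, helper55): push-forward of a `θ`-eigenclass to the
lower level is an eigenclass for the `T_ℓ` of the lower level, with the same eigenvalues

`D_N := CopyFinal.data (M' * p) S ..`, `D_M' := CopyFinal.data M' S ..` (the literal torsion data of
`S33x/Consumer/Final`, at both levels, with the SAME `S`).  For `x` in the `θ`-eigenspace of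
`D_N.M 1 = J₀(M' p)[p]` and `y := torsMap (degAlpha M' p) (p ^ 1) x` (resp. `degBeta`):
`D_M'.hecke 1 (T_ℓ) y = θ (T_ℓ) • y` for all primes `ℓ ∤ M' p`, `ℓ ∉ S`  (`old_eigenclass_alpha`,
`old_eigenclass_beta`); abstract form `old_eigenclass_of_intertwine`; export data form
`old_eigenclass_of_export`.

`pushData .. P : D_N.M 1 →+ D_M'.M 1` is `torsMap P (p ^ 1)` with the types written as `D.M 1`
(so that the `𝔽_p`-structure `CopyInTorsion.zmodModule D_M'` is found by unification);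
`pushData_apply : pushData .. P x = torsMap P (p ^ 1) x := rfl`.
-/

set_option autoImplicit false
set_option linter.unusedSectionVars false

noncomputable section

namespace Fermat.Agent.S40x.A5b.OldClass

open ModularCurve AlgebraicCurve CuspForm Fermat.Agent.Gateway.S31Red
  Fermat.Agent.S35x.Degeneracy Fermat.Agent.S35x
  Fermat.Agent.S40x.A.CopyInTorsion Fermat.Agent.S40x.A.CopyFinal

local notation "Γℚ" => (AlgebraicClosure ℚ ≃ₐ[ℚ] AlgebraicClosure ℚ)

attribute [local instance] Fermat.Agent.S40x.A.CopyInTorsion.zmodModule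

section abstract

variable {p N N' : ℕ} [Fact p.Prime] [NeZero N] [NeZero N'] {S : Finset ℕ}

/-- abstract form: an additive map `Q : D.M 1 → D'.M 1` which intertwines the two Hecke actions
along a ring homomorphism `r` maps the `θ`-eigenspace into the `r t = θ t` classes. -/
theorem old_eigenclass_of_intertwine (D : TorsionHeckeData p N S) (D' : TorsionHeckeData p N' S)
    (θ : heckeAlgebra N 2 (↑S : Set ℕ) →+* ZMod p)
    (Q : D.M 1 →+ D'.M 1)
    (r : heckeAlgebra N 2 (↑S : Set ℕ) →+* heckeAlgebra N' 2 (↑S : Set ℕ))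
    (hQ : ∀ (t : heckeAlgebra N 2 (↑S : Set ℕ)) (x : D.M 1),
      Q (D.hecke 1 t x) = D'.hecke 1 (r t) (Q x))
    (x : D.M 1) (hx : x ∈ eigenspace D θ) (t : heckeAlgebra N 2 (↑S : Set ℕ)) :
    D'.hecke 1 (r t) (Q x) = θ t • Q x := by
  have h1 : D.hecke 1 t x = θ t • x := (mem_eigenspace D θ).mp hx t
  rw [← hQ t x, h1]
  exact ZMod.map_smul Q (θ t) x

end abstract

variable {p M' : ℕ} [Fact p.Prime] [NeZero M'] [NeZero p] {S : Finset ℕ}

section exportData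

variable (hp : p.Prime) (hpS : p ∈ S)
  (hNS : ∀ q : ℕ, q.Prime → q ∣ M' * p → q ∈ S) (hNS' : ∀ q : ℕ, q.Prime → q ∣ M' → q ∈ S)
  (E : HeckeTorsionAction (M' * p) S) (h4 : Fermat.Agent.Gateway.S31Red.GaloisHeckeComm (M' * p))
  (h6 : TorsionEichlerShimura (M' * p)) (h7 : TorsionGalLevel (M' * p))
  (E' : HeckeTorsionAction M' S) (h4' : Fermat.Agent.Gateway.S31Red.GaloisHeckeComm M')
  (h6' : TorsionEichlerShimura M') (h7' : TorsionGalLevel M')

/-- the push-forward along `P` on the `p`-torsion, typed for the export data -/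
def pushExport (P : JZero (M' * p) →+ JZero M') :
    (torsionHeckeDataOfExport hp hpS hNS E h4 h6 h7).M 1 →+
      (torsionHeckeDataOfExport hp hpS hNS' E' h4' h6' h7').M 1 :=
  torsMap P (p ^ 1)

theorem pushExport_apply (P : JZero (M' * p) →+ JZero M')
    (x : JTors (M' * p) (p ^ 1)) :
    pushExport hp hpS hNS hNS' E h4 h6 h7 E' h4' h6' h7' P x = torsMap P (p ^ 1) x := rfl

/-- **A5**, export data form: for a Galois-equivariant `P` (e.g. `degAlpha`, `degBeta`). -/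
theorem old_eigenclass_of_export (P : JZero (M' * p) →+ JZero M')
    (hP : ∀ (σ : Γℚ) (x : JZero (M' * p)), P (σ • x) = σ • P x)
    (θ : heckeAlgebra (M' * p) 2 (↑S : Set ℕ) →+* ZMod p)
    (x : (torsionHeckeDataOfExport hp hpS hNS E h4 h6 h7).M 1)
    (hx : x ∈ eigenspace (torsionHeckeDataOfExport hp hpS hNS E h4 h6 h7) θ)
    {ℓ : ℕ} (hℓ : ℓ.Prime) (hℓN : ¬ ℓ ∣ M' * p) (hℓM' : ¬ ℓ ∣ M') (hℓS : ℓ ∉ (↑S : Set ℕ)) :
    (torsionHeckeDataOfExport hp hpS hNS' E' h4' h6' h7').hecke 1 (heckeAlgebra.T hℓ hℓM' hℓS)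
        (pushExport hp hpS hNS hNS' E h4 h6 h7 E' h4' h6' h7' P x) =
      θ (heckeAlgebra.T hℓ hℓN hℓS) • pushExport hp hpS hNS hNS' E h4 h6 h7 E' h4' h6' h7' P x := by
  have hNSset : ∀ q : ℕ, q.Prime → q ∣ M' * p → q ∈ (↑S : Set ℕ) :=
    fun q hq hqN => by exact_mod_cast hNS q hq hqN
  have hmS : ∀ q : ℕ, q.Prime → q ∣ p ^ 1 → q ∈ S := by
    intro q hq hqp
    rw [pow_one] at hqp
    rw [(Nat.prime_dvd_prime_iff_eq hq hp).mp hqp]
    exact hpS
  have key := old_eigenclass_of_intertwine (torsionHeckeDataOfExport hp hpS hNS E h4 h6 h7)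
    (torsionHeckeDataOfExport hp hpS hNS' E' h4' h6' h7') θ
    (pushExport hp hpS hNS hNS' E h4 h6 h7 E' h4' h6' h7' P) (levelHom hNSset)
    (fun t x => torsMap_eta_of_eichlerShimura P hP h6 h6' hNS E E' (levelHom hNSset)
      (fun ℓ hℓ hℓN hℓNq hℓS => levelHom_T hNSset hℓ hℓN hℓNq hℓS) (pow_pos hp.pos 1) hmS t x)
    x hx (heckeAlgebra.T hℓ hℓN hℓS)
  rw [levelHom_T hNSset hℓ hℓM' hℓN hℓS] at key
  exact key

/-- **new classes die under the push-forwards**, export data form. -/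
theorem pushExport_eq_zero_of_new (P : JZero (M' * p) →+ JZero M')
    (hP : ∀ (σ : Γℚ) (x : JZero (M' * p)), P (σ • x) = σ • P x)
    (θ : heckeAlgebra (M' * p) 2 (↑S : Set ℕ) →+* ZMod p)
    (hNSset : ∀ q : ℕ, q.Prime → q ∣ M' * p → q ∈ (↑S : Set ℕ))
    (h : heckeAlgebra (M' * p) 2 (↑S : Set ℕ)) (hθh : θ h ≠ 0) (hh : levelHom hNSset h = 0)
    (x : (torsionHeckeDataOfExport hp hpS hNS E h4 h6 h7).M 1)
    (hx : x ∈ eigenspace (torsionHeckeDataOfExport hp hpS hNS E h4 h6 h7) θ) :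
    pushExport hp hpS hNS hNS' E h4 h6 h7 E' h4' h6' h7' P x = 0 := by
  have hmS : ∀ q : ℕ, q.Prime → q ∣ p ^ 1 → q ∈ S := by
    intro q hq hqp
    rw [pow_one] at hqp
    rw [(Nat.prime_dvd_prime_iff_eq hq hp).mp hqp]
    exact hpS
  have key := old_eigenclass_of_intertwine (torsionHeckeDataOfExport hp hpS hNS E h4 h6 h7)
    (torsionHeckeDataOfExport hp hpS hNS' E' h4' h6' h7') θ
    (pushExport hp hpS hNS hNS' E h4 h6 h7 E' h4' h6' h7' P) (levelHom hNSset)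
    (fun t x => torsMap_eta_of_eichlerShimura P hP h6 h6' hNS E E' (levelHom hNSset)
      (fun ℓ hℓ hℓN hℓNq hℓS => levelHom_T hNSset hℓ hℓN hℓNq hℓS) (pow_pos hp.pos 1) hmS t x)
    x hx h
  rw [hh, map_zero] at key
  have h0 : θ h • pushExport hp hpS hNS hNS' E h4 h6 h7 E' h4' h6' h7' P x = 0 := by
    rw [← key]
    rfl
  rcases smul_eq_zero.mp h0 with h1 | h1
  · exact absurd h1 hθh
  · exact h1

end exportData

section concrete

variable (hp : p.Prime) (hpS : p ∈ S)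
  (hNS : ∀ q : ℕ, q.Prime → q ∣ M' * p → q ∈ S) (hNS' : ∀ q : ℕ, q.Prime → q ∣ M' → q ∈ S)

/-- the push-forward along `P` on the `p`-torsion, typed for the concrete data -/
def pushData (P : JZero (M' * p) →+ JZero M') :
    (data (M' * p) S hp hpS hNS).M 1 →+ (data M' S hp hpS hNS').M 1 :=
  torsMap P (p ^ 1)

theorem pushData_apply (P : JZero (M' * p) →+ JZero M') (x : JTors (M' * p) (p ^ 1)) :
    pushData hp hpS hNS hNS' P x = torsMap P (p ^ 1) x := rfl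

/-- **A5** for the concrete data and a Galois-equivariant `P`. -/
theorem old_eigenclass (P : JZero (M' * p) →+ JZero M')
    (hP : ∀ (σ : Γℚ) (x : JZero (M' * p)), P (σ • x) = σ • P x)
    (θ : heckeAlgebra (M' * p) 2 (↑S : Set ℕ) →+* ZMod p)
    (x : (data (M' * p) S hp hpS hNS).M 1) (hx : x ∈ eigenspace (data (M' * p) S hp hpS hNS) θ)
    {ℓ : ℕ} (hℓ : ℓ.Prime) (hℓN : ¬ ℓ ∣ M' * p) (hℓM' : ¬ ℓ ∣ M') (hℓS : ℓ ∉ (↑S : Set ℕ)) :
    (data M' S hp hpS hNS').hecke 1 (heckeAlgebra.T hℓ hℓM' hℓS) (pushData hp hpS hNS hNS' P x) =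
      θ (heckeAlgebra.T hℓ hℓN hℓS) • pushData hp hpS hNS hNS' P x :=
  old_eigenclass_of_export hp hpS hNS hNS' _ _ _ _ _ _ _ _ P hP θ x hx hℓ hℓN hℓM' hℓS

/-- **A5 (`degAlpha`)**. -/
theorem old_eigenclass_alpha
    (θ : heckeAlgebra (M' * p) 2 (↑S : Set ℕ) →+* ZMod p)
    (x : (data (M' * p) S hp hpS hNS).M 1) (hx : x ∈ eigenspace (data (M' * p) S hp hpS hNS) θ)
    {ℓ : ℕ} (hℓ : ℓ.Prime) (hℓN : ¬ ℓ ∣ M' * p) (hℓM' : ¬ ℓ ∣ M') (hℓS : ℓ ∉ (↑S : Set ℕ)) :
    (data M' S hp hpS hNS').hecke 1 (heckeAlgebra.T hℓ hℓM' hℓS)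
        (pushData hp hpS hNS hNS' (degAlpha M' p) x) =
      θ (heckeAlgebra.T hℓ hℓN hℓS) • pushData hp hpS hNS hNS' (degAlpha M' p) x :=
  old_eigenclass hp hpS hNS hNS' (degAlpha M' p) (degAlpha_smul M' p) θ x hx hℓ hℓN hℓM' hℓS

/-- **A5 (`degBeta`)**. -/
theorem old_eigenclass_beta
    (θ : heckeAlgebra (M' * p) 2 (↑S : Set ℕ) →+* ZMod p)
    (x : (data (M' * p) S hp hpS hNS).M 1) (hx : x ∈ eigenspace (data (M' * p) S hp hpS hNS) θ)
    {ℓ : ℕ} (hℓ : ℓ.Prime) (hℓN : ¬ ℓ ∣ M' * p) (hℓM' : ¬ ℓ ∣ M') (hℓS : ℓ ∉ (↑S : Set ℕ)) :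
    (data M' S hp hpS hNS').hecke 1 (heckeAlgebra.T hℓ hℓM' hℓS)
        (pushData hp hpS hNS hNS' (degBeta M' p) x) =
      θ (heckeAlgebra.T hℓ hℓN hℓS) • pushData hp hpS hNS hNS' (degBeta M' p) x :=
  old_eigenclass hp hpS hNS hNS' (degBeta M' p) (degBeta_smul M' p) θ x hx hℓ hℓN hℓM' hℓS

/-- **new classes die under the push-forwards.**  If some `h` in the kernel of the level lowering
homomorphism `levelHom : 𝕋(M' p) → 𝕋(M')` has `θ h ≠ 0` (`θ` is `p`-new), then every Galois-equivariant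
`P : J₀(M' p) → J₀(M')` (e.g. `degAlpha`, `degBeta`) kills the `θ`-eigenspace of `J₀(M' p)[p]`. -/
theorem pushData_eq_zero_of_new (P : JZero (M' * p) →+ JZero M')
    (hP : ∀ (σ : Γℚ) (x : JZero (M' * p)), P (σ • x) = σ • P x)
    (θ : heckeAlgebra (M' * p) 2 (↑S : Set ℕ) →+* ZMod p)
    (hNSset : ∀ q : ℕ, q.Prime → q ∣ M' * p → q ∈ (↑S : Set ℕ))
    (h : heckeAlgebra (M' * p) 2 (↑S : Set ℕ)) (hθh : θ h ≠ 0) (hh : levelHom hNSset h = 0)
    (x : (data (M' * p) S hp hpS hNS).M 1) (hx : x ∈ eigenspace (data (M' * p) S hp hpS hNS) θ) :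
    pushData hp hpS hNS hNS' P x = 0 :=
  pushExport_eq_zero_of_new hp hpS hNS hNS' _ _ _ _ _ _ _ _ P hP θ hNSset h hθh hh x hx

/-- in coordinates: `degAlpha` and `degBeta` vanish on the `θ`-eigenspace when `θ` is `p`-new. -/
theorem deg_eq_zero_of_new (hNS' : ∀ q : ℕ, q.Prime → q ∣ M' → q ∈ S)
    (θ : heckeAlgebra (M' * p) 2 (↑S : Set ℕ) →+* ZMod p)
    (hNSset : ∀ q : ℕ, q.Prime → q ∣ M' * p → q ∈ (↑S : Set ℕ))
    (h : heckeAlgebra (M' * p) 2 (↑S : Set ℕ)) (hθh : θ h ≠ 0) (hh : levelHom hNSset h = 0)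
    (x : JTors (M' * p) (p ^ 1)) (hx : x ∈ eigenspace (data (M' * p) S hp hpS hNS) θ) :
    degAlpha M' p (x : JZero (M' * p)) = 0 ∧ degBeta M' p (x : JZero (M' * p)) = 0 := by
  have h1 := pushData_eq_zero_of_new hp hpS hNS hNS' (degAlpha M' p) (degAlpha_smul M' p) θ hNSset
    h hθh hh x hx
  have h2 := pushData_eq_zero_of_new hp hpS hNS hNS' (degBeta M' p) (degBeta_smul M' p) θ hNSset
    h hθh hh x hx
  constructor
  · have := congrArg (fun z : JTors M' (p ^ 1) => (z : JZero M')) h1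
    exact this
  · have := congrArg (fun z : JTors M' (p ^ 1) => (z : JZero M')) h2
    exact this

omit [Fact p.Prime] in
/-- **the dichotomy new / old**: either `θ` is `p`-new (some `h ∈ ker levelHom` with `θ h ≠ 0`) or
`θ` factors through the Hecke algebra of level `M'`. -/
theorem new_or_factors {k : Type*} [CommRing k]
    (θ : heckeAlgebra (M' * p) 2 (↑S : Set ℕ) →+* k)
    (hNSset : ∀ q : ℕ, q.Prime → q ∣ M' * p → q ∈ (↑S : Set ℕ)) :
    (∃ h : heckeAlgebra (M' * p) 2 (↑S : Set ℕ), θ h ≠ 0 ∧ levelHom hNSset h = 0) ∨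
      ∃ θ' : heckeAlgebra M' 2 (↑S : Set ℕ) →+* k, ∀ t, θ' (levelHom hNSset t) = θ t := by
  by_cases hnew : ∃ h : heckeAlgebra (M' * p) 2 (↑S : Set ℕ), θ h ≠ 0 ∧ levelHom hNSset h = 0
  · exact Or.inl hnew
  · right
    have hker : RingHom.ker (levelHom hNSset) ≤ RingHom.ker θ := by
      intro t ht
      rw [RingHom.mem_ker] at ht ⊢
      by_contra hne
      exact hnew ⟨t, hne, ht⟩
    refine ⟨RingHom.liftOfSurjective (levelHom hNSset) (levelHom_surjective hNSset) ⟨θ, hker⟩,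
      fun t => ?_⟩
    exact RingHom.liftOfRightInverse_comp_apply _ _ _ ⟨θ, hker⟩ t

end concrete

end Fermat.Agent.S40x.A5b.OldClass
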